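import Mathlib

/-!
# Pólya's theorem on positive forms

A form is positive on the simplex exactly when, multiplied by a high power of the sum of the
variables, every coefficient of its degree becomes positive.
-/

set_option autoImplicit false

noncomputable section

namespace Fermat.Agent.PutinarPositivity

open MvPolynomial

variable {n : ℕ}

theorem cast_descFactorial_eq_prod (m : ℕ) : ∀ k : ℕ,
    (m.descFactorial k : ℝ) = ∏ j ∈ Finset.range k, ((m : ℝ) - j)
  | 0 => by simp
  | k + 1 => by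
    rw [Nat.descFactorial_succ, Finset.prod_range_succ, ← cast_descFactorial_eq_prod m k,
      Nat.cast_mul]
    rcases le_or_gt k m with h | h
    · rw [Nat.cast_sub h]; ring
    · simp [Nat.descFactorial_eq_zero_iff_lt.2 h]

/-- The form whose value gives the coefficients of `(∑ X_i) ^ N * f`. -/
def shiftedForm (f : MvPolynomial (Fin n) ℝ) (z : ℝ × (Fin n → ℝ)) : ℝ :=
  ∑ α ∈ f.support, f.coeff α * ∏ i, ∏ j ∈ Finset.range (α i), (z.2 i - j * z.1)

theorem shiftedForm_zero (f : MvPolynomial (Fin n) ℝ) (x : Fin n → ℝ) :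
    shiftedForm f (0, x) = eval x f := by
  simp [shiftedForm, eval_eq']

theorem prod_factorial_mul_coeff (f : MvPolynomial (Fin n) ℝ) {d : ℕ} (hf : f.IsHomogeneous d)
    {N : ℕ} (β : Fin n →₀ ℕ) (hβ : ∑ i, β i = N + d) :
    (∏ i, ((β i).factorial : ℝ)) * coeff β ((∑ i, X i) ^ N * f) =
      (N.factorial : ℝ) * ∑ α ∈ f.support, f.coeff α * ∏ i, ((β i).descFactorial (α i) : ℝ) := by
  classical
  conv_lhs => rw [f.as_sum, Finset.mul_sum, coeff_sum, Finset.mul_sum]
  rw [Finset.mul_sum]
  refine Finset.sum_congr rfl fun α hα => ?_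
  rw [coeff_mul_monomial']
  split_ifs with hle
  · have hd : ∑ i, α i = d := by
      have := hf (mem_support_iff.1 hα)
      rwa [Finsupp.weight_apply, Finsupp.sum_fintype _ _ (by simp), show
        (∑ i, α i • (1 : Fin n → ℕ) i) = ∑ i, α i by simp] at this
    have hsum : ∑ i, (β - α) i = N := by
      have h : ∑ i, ((β - α) i + α i) = ∑ i, β i :=
        Finset.sum_congr rfl fun i _ => by
          rw [Finsupp.tsub_apply]; exact Nat.sub_add_cancel (hle i)
      rw [Finset.sum_add_distrib, hd, hβ] at h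
      omega
    rw [coeff_sum_X_pow_of_fintype, if_pos (by rwa [Finsupp.sum_fintype _ _ (by simp)]),
      Finsupp.multinomial_eq_of_support_subset (Finset.subset_univ _)]
    have hmul := Nat.multinomial_spec Finset.univ (⇑(β - α))
    rw [hsum] at hmul
    have hfac : ∏ i, (β i).factorial =
        (∏ i, ((β - α) i).factorial) * ∏ i, (β i).descFactorial (α i) := by
      rw [← Finset.prod_mul_distrib]
      exact Finset.prod_congr rfl fun i _ => by
        rw [Finsupp.tsub_apply, Nat.factorial_mul_descFactorial (hle i)]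
    rw [← hmul, ← Nat.cast_prod, hfac]
    push_cast
    ring
  · obtain ⟨i, hi⟩ := not_forall.1 hle
    rw [mul_zero, Finset.prod_eq_zero (Finset.mem_univ i)
      (by rw [Nat.descFactorial_eq_zero_iff_lt.2 (not_le.1 hi), Nat.cast_zero]), mul_zero,
      mul_zero]

theorem isCompact_simplex (n : ℕ) : IsCompact (stdSimplex ℝ (Fin n)) := isCompact_stdSimplex ℝ _

/-- **Pólya's theorem.** -/
theorem polya {f : MvPolynomial (Fin n) ℝ} {d : ℕ} (hf : f.IsHomogeneous d)
    (hpos : ∀ x : Fin n → ℝ, (∀ i, 0 ≤ x i) → ∑ i, x i = 1 → 0 < eval x f) :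
    ∃ N₀ : ℕ, ∀ N ≥ N₀, ∀ β : Fin n →₀ ℕ, ∑ i, β i = N + d →
      0 < coeff β ((∑ i, X i) ^ N * f) := by
  have hev : ∀ᶠ ε in nhds (0 : ℝ), ∀ x ∈ stdSimplex ℝ (Fin n), 0 < shiftedForm f (ε, x) := by
    refine (isCompact_simplex n).eventually_forall_of_forall_eventually fun x hx => ?_
    have hc : Continuous (shiftedForm f) := by
      unfold shiftedForm; fun_prop
    exact hc.continuousAt.eventually (lt_mem_nhds (by
      rw [shiftedForm_zero]; exact hpos x hx.1 hx.2))
  obtain ⟨δ, hδ, hball⟩ := Metric.eventually_nhds_iff.1 hev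
  obtain ⟨N₀, hN₀⟩ := exists_nat_gt δ⁻¹
  refine ⟨N₀ + 1, fun N hN β hβ => ?_⟩
  set t : ℝ := ((N + d : ℕ) : ℝ)
  have ht : 0 < t := by
    simp only [t]; exact Nat.cast_pos.2 (by omega)
  have hε : dist (1 / t) 0 < δ := by
    rw [Real.dist_0_eq_abs, abs_of_pos (by positivity), one_div_lt ht hδ, one_div]
    refine hN₀.trans_le ?_
    simp only [t]; exact_mod_cast (by omega : N₀ ≤ N + d)
  have hx : (fun i => (β i : ℝ) / t) ∈ stdSimplex ℝ (Fin n) := by
    refine ⟨fun i => by positivity, ?_⟩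
    rw [← Finset.sum_div, ← Nat.cast_sum, hβ, div_self ht.ne']
  have h := hball hε _ hx
  have e : ∑ α ∈ f.support, f.coeff α * ∏ i, ((β i).descFactorial (α i) : ℝ) =
      t ^ d * shiftedForm f (1 / t, fun i => (β i : ℝ) / t) := by
    rw [shiftedForm, Finset.mul_sum]
    refine Finset.sum_congr rfl fun α hα => ?_
    have hd : ∑ i, α i = d := by
      have := hf (mem_support_iff.1 hα)
      rwa [Finsupp.weight_apply, Finsupp.sum_fintype _ _ (by simp), show
        (∑ i, α i • (1 : Fin n → ℕ) i) = ∑ i, α i by simp] at this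
    rw [← hd, ← Finset.prod_pow_eq_pow_sum, mul_left_comm, ← Finset.prod_mul_distrib]
    refine congrArg _ (Finset.prod_congr rfl fun i _ => ?_)
    rw [cast_descFactorial_eq_prod]
    calc ∏ j ∈ Finset.range (α i), ((β i : ℝ) - j)
        = ∏ j ∈ Finset.range (α i), t * ((β i : ℝ) / t - j * (1 / t)) :=
          Finset.prod_congr rfl fun j _ => by field_simp
      _ = t ^ α i * ∏ j ∈ Finset.range (α i), ((β i : ℝ) / t - j * (1 / t)) := by
          rw [Finset.prod_mul_distrib, Finset.prod_const, Finset.card_range]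
  have key := prod_factorial_mul_coeff f hf β hβ
  rw [e] at key
  have hP : (0 : ℝ) < ∏ i : Fin n, ((β i).factorial : ℝ) :=
    Finset.prod_pos fun i _ => Nat.cast_pos.2 (β i).factorial_pos
  refine (mul_pos_iff_of_pos_left hP).1 ?_
  rw [key]
  exact mul_pos (Nat.cast_pos.2 N.factorial_pos) (mul_pos (pow_pos ht d) h)

/-- **Pólya's theorem, both directions.** -/
theorem polya_iff {f : MvPolynomial (Fin n) ℝ} {d : ℕ} (hf : f.IsHomogeneous d) :
    (∀ x : Fin n → ℝ, (∀ i, 0 ≤ x i) → ∑ i, x i = 1 → 0 < eval x f) ↔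
      ∃ N : ℕ, ∀ β : Fin n →₀ ℕ, ∑ i, β i = N + d → 0 < coeff β ((∑ i, X i) ^ N * f) := by
  classical
  refine ⟨fun h => (polya hf h).imp fun N hN => hN N le_rfl, ?_⟩
  rintro ⟨N, hN⟩ x hx hsum
  set g := (∑ i, X i) ^ N * f
  have hhom : g.IsHomogeneous (N + d) := by
    simpa using ((IsHomogeneous.sum (φ := fun i : Fin n => (X i : MvPolynomial (Fin n) ℝ))
      Finset.univ 1 fun i _ => isHomogeneous_X ℝ i).pow N).mul hf
  have he : eval x f = eval x g := by simp [g, hsum]
  rw [he, eval_eq']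
  obtain ⟨j, -, hj⟩ := Finset.exists_ne_zero_of_sum_ne_zero (hsum.trans_ne one_ne_zero)
  have hdeg : ∀ β ∈ g.support, ∑ i, β i = N + d := fun β hβ => by
    have := hhom (mem_support_iff.1 hβ)
    rwa [Finsupp.weight_apply, Finsupp.sum_fintype _ _ (by simp), show
      (∑ i, β i • (1 : Fin n → ℕ) i) = ∑ i, β i by simp] at this
  have hpos := hN (Finsupp.single j (N + d))
    (by simp [Finsupp.single_apply, Finset.sum_add_distrib])
  refine Finset.sum_pos' (fun β hβ => mul_nonneg (hN β (hdeg β hβ)).le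
    (Finset.prod_nonneg fun i _ => pow_nonneg (hx i) _))
    ⟨Finsupp.single j (N + d), mem_support_iff.2 hpos.ne', ?_⟩
  refine mul_pos hpos ?_
  refine Finset.prod_pos fun i _ => ?_
  rcases eq_or_ne i j with rfl | hij
  · exact pow_pos ((hx i).lt_of_ne' hj) _
  · simp [hij]

end Fermat.Agent.PutinarPositivity
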