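import Fermat.Agent.PutinarPositivity.Representation
import Fermat.Agent.TarskiSeidenberg.Positivstellensatz

/-!
# The theorems of Putinar and Schmüdgen

A polynomial positive on a basic set with an archimedean quadratic module lies in the module;
for a compact basic set the preordering is archimedean (Wörmann), whence Schmüdgen's theorem.
-/

set_option autoImplicit false
set_option linter.unusedSectionVars false

noncomputable section

namespace Fermat.Agent.PutinarPositivity

open MvPolynomial Fermat.Agent.TarskiSeidenberg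

variable {n : ℕ}

/-- The sum of the squares of the variables. -/
def sumSqVars (n : ℕ) : MvPolynomial (Fin n) ℝ := ∑ i, X i * X i

theorem isSumSq_sumSqVars : IsSumSq (sumSqVars n) := IsSumSq.sum_mul_self _ _

theorem eval_sumSqVars (x : Fin n → ℝ) : eval x (sumSqVars n) = ∑ i, x i ^ 2 := by
  simp [sumSqVars, sq]

/-- Bounded elements: a module with `r - ∑ X_i²` is archimedean. -/
theorem isArchimedean_of_sumSq {M : Set (MvPolynomial (Fin n) ℝ)} (hM : IsQuadModule M) {r : ℝ}
    (hr : C r - sumSqVars n ∈ M) : IsArchimedeanModule M := by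
  set B : MvPolynomial (Fin n) ℝ → Prop := fun a => ∃ N : ℝ, 0 < N ∧ C N - a ∈ M ∧ C N + a ∈ M
  have hreal : ∀ t : ℝ, 0 ≤ t → C t ∈ M := fun t ht => by
    simpa using hM.real_mem ht
  have hadd : ∀ a b, B a → B b → B (a + b) := fun a b ⟨N, hN, h1, h2⟩ ⟨N', hN', h1', h2'⟩ =>
    ⟨N + N', by positivity,
      by rw [C_add, add_sub_add_comm]; exact hM.add_mem h1 h1',
      by rw [C_add, add_add_add_comm]; exact hM.add_mem h2 h2'⟩
  have hneg : ∀ a, B a → B (-a) := fun a ⟨N, hN, h1, h2⟩ =>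
    ⟨N, hN, by rwa [sub_neg_eq_add], by rwa [← sub_eq_add_neg]⟩
  have hC : ∀ t : ℝ, B (C t) := fun t => ⟨|t| + 1, by positivity,
    by rw [← C_sub]; exact hreal _ (by linarith [le_abs_self t]),
    by rw [← C_add]; exact hreal _ (by linarith [neg_abs_le t])⟩
  have hsq : ∀ a, B a → B (a * a) := fun a ⟨N, hN, h1, h2⟩ =>
    ⟨N ^ 2, by positivity, hM.sq_sub_sq_mem hN h1 h2,
      hM.add_mem (hreal _ (sq_nonneg N)) (hM.sq_mem a)⟩
  have hhalf : ∀ a, B a → B (C (1 / 2) * a) := fun a ⟨N, hN, h1, h2⟩ =>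
    ⟨1 / 2 * N, by positivity,
      by rw [C_mul, ← mul_sub]; exact hM.smul_mem (by norm_num) h1,
      by rw [C_mul, ← mul_add]; exact hM.smul_mem (by norm_num) h2⟩
  have hmul : ∀ a b, B a → B b → B (a * b) := fun a b ha hb => by
    have h := hhalf _ (hadd _ _ (hsq _ (hadd _ _ ha hb))
      (hneg _ (hadd _ _ (hsq _ ha) (hsq _ hb))))
    have h2 : C (1 / 2 : ℝ) * (2 : MvPolynomial (Fin n) ℝ) = 1 := by
      rw [show (2 : MvPolynomial (Fin n) ℝ) = C 2 from (map_ofNat C 2).symm, ← C_mul]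
      norm_num
    rwa [show C (1 / 2 : ℝ) * ((a + b) * (a + b) + -(a * a + b * b)) = a * b by
      linear_combination (a * b) * h2] at h
  have hX : ∀ i, B (X i) := fun i => by
    have hi : C (|r|) - X i * X i ∈ M := by
      rw [show C |r| - X i * X i = C r - sumSqVars n +
        (C (|r| - r) + ∑ j ∈ Finset.univ.erase i, X j * X j) by
          rw [sumSqVars, ← Finset.add_sum_erase _ _ (Finset.mem_univ i), C_sub]; ring]
      exact hM.add_mem hr (hM.add_mem (hreal _ (by linarith [le_abs_self r]))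
        (hM.sumSq_mem (IsSumSq.sum_mul_self _ _)))
    have h4 : C (1 / 2 : ℝ) * (2 : MvPolynomial (Fin n) ℝ) = 1 := by
      rw [show (2 : MvPolynomial (Fin n) ℝ) = C 2 from (map_ofNat C 2).symm, ← C_mul]
      norm_num
    refine ⟨|r| + 1 / 4, by positivity, ?_, ?_⟩
    · rw [show C (|r| + 1 / 4) - X i = C |r| - X i * X i + (X i - C (1 / 2)) * (X i - C (1 / 2)) by
        rw [C_add, show (1 / 4 : ℝ) = 1 / 2 * (1 / 2) by norm_num, C_mul]
        linear_combination (X i) * h4]
      exact hM.add_mem hi (hM.sq_mem _)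
    · rw [show C (|r| + 1 / 4) + X i = C |r| - X i * X i + (X i + C (1 / 2)) * (X i + C (1 / 2)) by
        rw [C_add, show (1 / 4 : ℝ) = 1 / 2 * (1 / 2) by norm_num, C_mul]
        linear_combination (-X i) * h4]
      exact hM.add_mem hi (hM.sq_mem _)
  intro a
  suffices h : B a from h.imp fun N hN => hN.2.1
  induction a using MvPolynomial.induction_on with
  | C t => exact hC t
  | add p q hp hq => exact hadd p q hp hq
  | mul_X p i hp => exact hmul p _ hp (hX i)

theorem mem_of_pos_on {M : Set (MvPolynomial (Fin n) ℝ)} (hM : IsQuadModule M) {r : ℝ}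
    (hr : C r - sumSqVars n ∈ M) (f : MvPolynomial (Fin n) ℝ)
    (hf : ∀ x, (∀ m ∈ M, 0 ≤ eval x m) → 0 < eval x f) : f ∈ M := by
  refine mem_of_pos hM (isArchimedean_of_sumSq hM hr) f fun φ hφ => ?_
  have e : ∀ p, φ p = eval (fun i => φ (X i)) p := fun p => by
    rw [aeval_unique φ]
    simp [aeval_eq_eval₂Hom, Function.comp_def]
  rw [e]
  exact hf _ fun m hm => e m ▸ hφ m hm

/-- The quadratic module generated by `G`. -/
def quadModule (G : Finset (MvPolynomial (Fin n) ℝ)) : Set (MvPolynomial (Fin n) ℝ) :=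
  {z | ∃ (σ₀ : MvPolynomial (Fin n) ℝ) (σ : MvPolynomial (Fin n) ℝ → MvPolynomial (Fin n) ℝ),
    IsSumSq σ₀ ∧ (∀ g ∈ G, IsSumSq (σ g)) ∧ z = σ₀ + ∑ g ∈ G, σ g * g}

theorem isQuadModule_quadModule (G : Finset (MvPolynomial (Fin n) ℝ)) :
    IsQuadModule (quadModule G) where
  one_mem := ⟨1, 0, IsSumSq.one, fun g _ => IsSumSq.zero, by simp⟩
  add_mem := by
    rintro _ _ ⟨σ₀, σ, h₀, h, rfl⟩ ⟨τ₀, τ, k₀, k, rfl⟩
    exact ⟨σ₀ + τ₀, σ + τ, h₀.add k₀, fun g hg => (h g hg).add (k g hg), by
      simp only [Pi.add_apply, add_mul, Finset.sum_add_distrib]; ring⟩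
  sq_mul_mem := by
    rintro a _ ⟨σ₀, σ, h₀, h, rfl⟩
    exact ⟨a * a * σ₀, fun g => a * a * σ g, (IsSumSq.mul_self a).mul h₀,
      fun g hg => (IsSumSq.mul_self a).mul (h g hg), by
      simp only [mul_add, Finset.mul_sum, mul_assoc]⟩

theorem mem_quadModule {G : Finset (MvPolynomial (Fin n) ℝ)} {g : MvPolynomial (Fin n) ℝ}
    (hg : g ∈ G) : g ∈ quadModule G := by
  classical
  refine ⟨0, fun h => if h = g then 1 else 0, IsSumSq.zero, fun h _ => ?_, by simp [hg]⟩
  dsimp only
  split_ifs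
  · exact IsSumSq.one
  · exact IsSumSq.zero

/-- **Putinar's Positivstellensatz.** -/
theorem putinar {G : Finset (MvPolynomial (Fin n) ℝ)} {r : ℝ}
    (hr : C r - sumSqVars n ∈ quadModule G) (f : MvPolynomial (Fin n) ℝ)
    (hf : ∀ x ∈ basicSet G, 0 < eval x f) : f ∈ quadModule G :=
  mem_of_pos_on (isQuadModule_quadModule G) hr f fun x hx => hf x fun g hg =>
    hx g (mem_quadModule hg)

theorem isQuadModule_genCone (G : Set (MvPolynomial (Fin n) ℝ)) :
    IsQuadModule (genCone G : Set (MvPolynomial (Fin n) ℝ)) where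
  one_mem := one_mem _
  add_mem := add_mem
  sq_mul_mem a _ hm := mul_mem (isSquare_mem_genCone ⟨a, rfl⟩) hm

/-- **Wörmann**: the preordering of a bounded basic set is archimedean. -/
theorem exists_sub_sumSqVars_mem (G : Finset (MvPolynomial (Fin n) ℝ)) {N : ℝ}
    (hN : ∀ x ∈ basicSet G, ∑ i, x i ^ 2 ≤ N) :
    ∃ r, C r - sumSqVars n ∈ genCone (G : Set (MvPolynomial (Fin n) ℝ)) := by
  classical
  set T := genCone (G : Set (MvPolynomial (Fin n) ℝ))
  set M := |N| + 1
  have hM0 : 0 < M := by positivity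
  obtain ⟨p, hp, q, hq, e⟩ := (positivstellensatz G (C M - sumSqVars n)).1 fun x hx => by
    rw [map_sub, eval_C, eval_sumSqVars]
    linarith [hN x hx, le_abs_self N]
  set w := C M - sumSqVars n
  have hS : sumSqVars n ∈ T := by
    rw [sumSqVars]
    exact sum_mem fun i _ => isSquare_mem_genCone ⟨X i, rfl⟩
  have hC : ∀ t : ℝ, 0 ≤ t → C t ∈ T := fun t ht =>
    isSquare_mem_genCone ⟨C (Real.sqrt t), by rw [← C_mul, Real.mul_self_sqrt ht]⟩
  have harch := isArchimedean_of_sumSq (isQuadModule_genCone (insert w (G : Set _))) (r := M)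
    (subset_genCone (Set.mem_insert w _))
  obtain ⟨M₀, hM₀⟩ := harch q
  set M₁ := |M₀|
  have hM₁ : C M₁ - q ∈ genCone (insert w (G : Set (MvPolynomial (Fin n) ℝ))) := by
    rw [show C M₁ - q = (algebraMap ℝ (MvPolynomial (Fin n) ℝ)) M₀ - q + C (M₁ - M₀) by
      rw [MvPolynomial.algebraMap_eq, C_sub]; ring]
    exact add_mem hM₀ (genCone_mono (Set.subset_insert w _) (hC _ (sub_nonneg.2 (le_abs_self M₀))))
  obtain ⟨a, ha, b, hb, e₁⟩ := exists_eq_of_mem_genCone_insert hM₁
  have h1 : (1 + q) * (C M₁ - q) ∈ T := by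
    rw [show (1 + q) * (C M₁ - q) = (1 + q) * a + b * p * (w * w) by
      linear_combination (1 + q) * e₁ - (b * w) * e]
    exact add_mem (mul_mem (add_mem (one_mem _) hq) ha)
      (mul_mem (mul_mem hb hp) (isSquare_mem_genCone ⟨w, rfl⟩))
  set c := M₁ / 2
  set M₂ := M₁ + c ^ 2
  have h2 : C M₂ - q ∈ T := by
    have hc : (2 : MvPolynomial (Fin n) ℝ) * C c = C M₁ := by
      rw [show (2 : MvPolynomial (Fin n) ℝ) = C 2 from (map_ofNat C 2).symm, ← C_mul]
      congr 1
      simp only [c]; ring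
    rw [show C M₂ - q = (1 + q) * (C M₁ - q) + (q - C c) * (q - C c) by
      simp only [M₂, C_add, C_pow]
      linear_combination q * hc]
    exact add_mem h1 (isSquare_mem_genCone ⟨q - C c, rfl⟩)
  refine ⟨M * (1 + M₂), ?_⟩
  rw [show C (M * (1 + M₂)) - sumSqVars n =
      p * (w * w) + C M * (C M₂ - q) + q * sumSqVars n by
    simp only [C_mul, C_add, map_one, w] at e ⊢
    linear_combination (-(C M - sumSqVars n)) * e]
  exact add_mem (add_mem (mul_mem hp (isSquare_mem_genCone ⟨w, rfl⟩))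
    (mul_mem (hC M hM0.le) h2)) (mul_mem hq hS)

/-- **Schmüdgen's Positivstellensatz**: no denominators on a compact basic set. -/
theorem schmudgen {G : Finset (MvPolynomial (Fin n) ℝ)} (hK : IsCompact (basicSet G))
    (f : MvPolynomial (Fin n) ℝ) (hf : ∀ x ∈ basicSet G, 0 < eval x f) :
    f ∈ genCone (G : Set (MvPolynomial (Fin n) ℝ)) := by
  obtain ⟨N, hN⟩ := (hK.image (f := fun x : Fin n → ℝ => ∑ i, x i ^ 2) (by fun_prop)).bddAbove
  obtain ⟨r, hr⟩ := exists_sub_sumSqVars_mem G fun x hx => hN ⟨x, hx, rfl⟩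
  exact mem_of_pos_on (isQuadModule_genCone _) hr f fun x hx => hf x fun g hg =>
    hx g (subset_genCone hg)

/-- The basic set is compact exactly when the preordering is archimedean. -/
theorem isCompact_iff_exists_sub_mem (G : Finset (MvPolynomial (Fin n) ℝ)) :
    IsCompact (basicSet G) ↔
      ∃ r, C r - sumSqVars n ∈ genCone (G : Set (MvPolynomial (Fin n) ℝ)) := by
  constructor
  · intro hK
    obtain ⟨N, hN⟩ := (hK.image (f := fun x : Fin n → ℝ => ∑ i, x i ^ 2) (by fun_prop)).bddAbove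
    exact exists_sub_sumSqVars_mem G fun x hx => hN ⟨x, hx, rfl⟩
  · rintro ⟨r, hr⟩
    refine Metric.isCompact_of_isClosed_isBounded ?_ ?_
    · simp only [basicSet, Set.ofPred_forall]
      exact isClosed_biInter fun g _ => isClosed_le continuous_const (continuous_eval g)
    · refine (Metric.isBounded_closedBall (x := (0 : Fin n → ℝ)) (r := |r| + 1)).subset
        fun x hx => ?_
      have h := eval_nonneg_of_mem hr hx
      rw [map_sub, eval_C, eval_sumSqVars] at h
      rw [Metric.mem_closedBall, dist_zero_right, pi_norm_le_iff_of_nonneg (by positivity)]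
      intro i
      have hi : x i ^ 2 ≤ r := (Finset.single_le_sum (fun j _ => sq_nonneg (x j))
        (Finset.mem_univ i)).trans (by linarith)
      rw [Real.norm_eq_abs]
      nlinarith [le_abs_self r, sq_abs (x i), sq_nonneg (|x i| - 1), abs_nonneg (x i)]

/-! ### Nonnegativity is not enough -/

/-- `(1 - X²)³`. -/
def cubeInterval : MvPolynomial (Fin 1) ℝ := (1 - X 0 ^ 2) ^ 3

theorem basicSet_cubeInterval :
    basicSet {cubeInterval} = Set.Icc (fun _ => (-1 : ℝ)) (fun _ => 1) := by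
  ext x
  have hx : ∀ i : Fin 1, i = 0 := fun i => Subsingleton.elim i 0
  simp only [basicSet, cubeInterval, Finset.mem_singleton, forall_eq, Set.mem_ofPred_eq, map_pow,
    map_sub, map_one, eval_X, Set.mem_Icc, Pi.le_def]
  rw [Odd.pow_nonneg_iff (by decide), sub_nonneg, sq_le_one_iff_abs_le_one, abs_le]
  exact ⟨fun h => ⟨fun i => hx i ▸ h.1, fun i => hx i ▸ h.2⟩, fun h => ⟨h.1 0, h.2 0⟩⟩

/-- **`1 - X²` is nonnegative on `[-1, 1]` and outside the preordering of `(1 - X²)³`.** -/
theorem one_sub_sq_not_mem :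
    (1 - X 0 ^ 2 : MvPolynomial (Fin 1) ℝ) ∉
      genCone (({cubeInterval} : Finset (MvPolynomial (Fin 1) ℝ)) : Set _) := by
  have key : ∀ z : MvPolynomial (Fin 1) ℝ,
      z ∈ genCone (({cubeInterval} : Finset (MvPolynomial (Fin 1) ℝ)) : Set _) →
      0 ≤ eval (fun _ => (1 : ℝ)) z ∧
        (eval (fun _ => (1 : ℝ)) z = 0 → eval (fun _ => (1 : ℝ)) (pderiv 0 z) = 0) := by
    intro z hz
    induction hz using Subsemiring.closure_induction with
    | mem z hz =>
      rcases hz with ⟨v, rfl⟩ | hz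
      · refine ⟨by rw [map_mul]; exact mul_self_nonneg _, fun h => ?_⟩
        rw [map_mul, mul_self_eq_zero] at h
        simp [h]
      · rw [Finset.coe_singleton, Set.mem_singleton_iff] at hz
        subst hz
        simp [cubeInterval]
    | zero => simp
    | one => simp
    | add y z _ _ hy hz =>
      refine ⟨by rw [map_add]; exact add_nonneg hy.1 hz.1, fun h => ?_⟩
      rw [map_add] at h
      obtain ⟨h1, h2⟩ := (add_eq_zero_iff_of_nonneg hy.1 hz.1).1 h
      rw [map_add, map_add, hy.2 h1, hz.2 h2, add_zero]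
    | mul y z _ _ hy hz =>
      refine ⟨by rw [map_mul]; exact mul_nonneg hy.1 hz.1, fun h => ?_⟩
      rw [map_mul, mul_eq_zero] at h
      rcases h with h | h
      · simp [h, hy.2 h]
      · simp [h, hz.2 h]
  intro h
  have := (key _ h).2 (by simp)
  simp at this

end Fermat.Agent.PutinarPositivity
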