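import Mathlib

/-!
# The representation theorem for archimedean quadratic modules

An element of a real algebra that is positive at every character nonnegative on an archimedean
quadratic module lies in the module (Jacobi's theorem, with Marshall's proof).
-/

set_option autoImplicit false
set_option linter.unusedSectionVars false

noncomputable section

namespace Fermat.Agent.PutinarPositivity

variable {A : Type*} [CommRing A] [Algebra ℝ A]

/-- A quadratic module. -/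
structure IsQuadModule (M : Set A) : Prop where
  one_mem : (1 : A) ∈ M
  add_mem : ∀ {a b}, a ∈ M → b ∈ M → a + b ∈ M
  sq_mul_mem : ∀ a {m}, m ∈ M → a * a * m ∈ M

/-- Every element is bounded above by a real number. -/
def IsArchimedeanModule (M : Set A) : Prop := ∀ a : A, ∃ r : ℝ, algebraMap ℝ A r - a ∈ M

local notation "↑ₐ" => algebraMap ℝ A

namespace IsQuadModule

variable {M : Set A} (hM : IsQuadModule M)
include hM

theorem zero_mem : (0 : A) ∈ M := by simpa using hM.sq_mul_mem 0 hM.one_mem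

theorem sq_mem (a : A) : a * a ∈ M := by simpa using hM.sq_mul_mem a hM.one_mem

theorem sumSq_mul_mem {s m : A} (hs : IsSumSq s) (hm : m ∈ M) : s * m ∈ M := by
  induction hs with
  | zero => rw [zero_mul]; exact hM.zero_mem
  | sq_add a _ ih => rw [add_mul]; exact hM.add_mem (hM.sq_mul_mem a hm) ih

theorem sumSq_mem {s : A} (hs : IsSumSq s) : s ∈ M := by
  simpa using hM.sumSq_mul_mem hs hM.one_mem

theorem smul_mem {r : ℝ} (hr : 0 ≤ r) {m : A} (hm : m ∈ M) : ↑ₐ r * m ∈ M := by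
  have := hM.sq_mul_mem (↑ₐ (Real.sqrt r)) hm
  rwa [← map_mul, Real.mul_self_sqrt hr] at this

theorem real_mem {r : ℝ} (hr : 0 ≤ r) : ↑ₐ r ∈ M := by simpa using hM.smul_mem hr hM.one_mem

theorem neg_real_not_mem (h : (-1 : A) ∉ M) {r : ℝ} (hr : r < 0) : ↑ₐ r ∉ M := fun hmem => h (by
  have := hM.smul_mem (inv_nonneg.2 (neg_nonneg.2 hr.le)) hmem
  rwa [← map_mul, show (-r)⁻¹ * r = -1 by field_simp [hr.ne], map_neg, map_one] at this)

/-- If `δ ± a` lie in the module, so does `δ² - a²`. -/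
theorem sq_sub_sq_mem {a : A} {δ : ℝ} (hδ : 0 < δ) (h1 : ↑ₐ δ - a ∈ M) (h2 : ↑ₐ δ + a ∈ M) :
    ↑ₐ (δ ^ 2) - a * a ∈ M := by
  have h := hM.smul_mem (r := (2 * δ)⁻¹) (by positivity)
    (hM.add_mem (hM.sq_mul_mem (↑ₐ δ + a) h1) (hM.sq_mul_mem (↑ₐ δ - a) h2))
  have e : ↑ₐ (2 * δ)⁻¹ * (↑ₐ δ + ↑ₐ δ) = 1 := by
    rw [← map_add, ← map_mul, show (2 * δ)⁻¹ * (δ + δ) = 1 by field_simp; ring, map_one]
  convert h using 1
  rw [map_pow]
  linear_combination (-((↑ₐ δ) ^ 2 - a * a)) * e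

theorem exists_maximal (h : (-1 : A) ∉ M) :
    ∃ Q, M ⊆ Q ∧ IsQuadModule Q ∧ (-1 : A) ∉ Q ∧
      ∀ Q', IsQuadModule Q' → (-1 : A) ∉ Q' → Q ⊆ Q' → Q' ⊆ Q := by
  obtain ⟨Q, hMQ, hQ⟩ := zorn_subset_nonempty {Q : Set A | IsQuadModule Q ∧ (-1 : A) ∉ Q}
    (fun c hc hch hne => by
      obtain ⟨Q₀, hQ₀⟩ := hne
      refine ⟨⋃₀ c, ⟨⟨⟨Q₀, hQ₀, (hc hQ₀).1.one_mem⟩, ?_, ?_⟩, ?_⟩,
        fun s hs => Set.subset_sUnion_of_mem hs⟩
      · rintro a b ⟨s, hs, ha⟩ ⟨t, ht, hb⟩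
        rcases hch.total hs ht with h | h
        · exact ⟨t, ht, (hc ht).1.add_mem (h ha) hb⟩
        · exact ⟨s, hs, (hc hs).1.add_mem ha (h hb)⟩
      · rintro a m ⟨s, hs, hm⟩
        exact ⟨s, hs, (hc hs).1.sq_mul_mem a hm⟩
      · rintro ⟨s, hs, h⟩
        exact (hc hs).2 h) M ⟨hM, h⟩
  exact ⟨Q, hMQ, hQ.1.1, hQ.1.2, fun Q' h1 h2 h3 => hQ.2 ⟨h1, h2⟩ h3⟩

end IsQuadModule

/-- A maximal proper module contains `a` or `-a`. -/
theorem mem_or_neg_mem {Q : Set A} (hQ : IsQuadModule Q) (h1 : (-1 : A) ∉ Q)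
    (hmax : ∀ Q', IsQuadModule Q' → (-1 : A) ∉ Q' → Q ⊆ Q' → Q' ⊆ Q) (x : A) :
    x ∈ Q ∨ -x ∈ Q := by
  by_contra! hx
  have key : ∀ y : A, y ∉ Q → ∃ q ∈ Q, ∃ s, IsSumSq s ∧ -1 = q + s * y := by
    intro y hy
    by_contra! hno
    refine hy (hmax {z | ∃ q ∈ Q, ∃ s, IsSumSq s ∧ z = q + s * y}
      ⟨⟨1, hQ.one_mem, 0, IsSumSq.zero, by ring⟩, ?_, ?_⟩
      (fun ⟨q, hq, s, hs, e⟩ => hno q hq s hs e)
      (fun q hq => ⟨q, hq, 0, IsSumSq.zero, by ring⟩)
      ⟨0, hQ.zero_mem, 1, IsSumSq.one, by ring⟩)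
    · rintro _ _ ⟨q, hq, s, hs, rfl⟩ ⟨q', hq', s', hs', rfl⟩
      exact ⟨q + q', hQ.add_mem hq hq', s + s', hs.add hs', by ring⟩
    · rintro a _ ⟨q, hq, s, hs, rfl⟩
      exact ⟨a * a * q, hQ.sq_mul_mem a hq, a * a * s, (IsSumSq.mul_self a).mul hs, by ring⟩
  obtain ⟨q, hq, s, hs, e⟩ := key x hx.1
  obtain ⟨q', hq', s', hs', e'⟩ := key (-x) hx.2
  have hneg : -(s + s') ∈ Q := by
    rw [show -(s + s') = s * q' + s' * q by linear_combination s * e' + s' * e]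
    exact hQ.add_mem (hQ.sumSq_mul_mem hs hq') (hQ.sumSq_mul_mem hs' hq)
  have hnegs : -s ∈ Q := by
    rw [show -s = -(s + s') + s' by ring]
    exact hQ.add_mem hneg (hQ.sumSq_mem hs')
  -- the support is an ideal
  have hideal : s * x ∈ Q := by
    have h := hQ.smul_mem (r := (4 : ℝ)⁻¹) (by norm_num)
      (hQ.add_mem (hQ.sq_mul_mem (x + 1) (hQ.sumSq_mem hs)) (hQ.sq_mul_mem (x - 1) hnegs))
    have h4 : ↑ₐ (4 : ℝ)⁻¹ * 4 = 1 := by
      rw [show (4 : A) = ↑ₐ 4 from (map_ofNat _ 4).symm, ← map_mul]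
      norm_num
    convert h using 1
    linear_combination (-(s * x)) * h4
  exact h1 (e ▸ hQ.add_mem hq hideal)

/-- **A proper archimedean module is nonnegative at a character.** -/
theorem exists_character {M : Set A} (hM : IsQuadModule M) (harch : IsArchimedeanModule M)
    (h : (-1 : A) ∉ M) : ∃ φ : A →ₐ[ℝ] ℝ, ∀ m ∈ M, 0 ≤ φ m := by
  obtain ⟨Q, hMQ, hQ, h1, hmax⟩ := hM.exists_maximal h
  set P : A → ℝ → Prop := fun a c =>
    ∀ ε : ℝ, 0 < ε → ↑ₐ (c + ε) - a ∈ Q ∧ a - ↑ₐ (c - ε) ∈ Q with hP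
  have hex : ∀ a, ∃ c, P a c := by
    intro a
    set S := {r : ℝ | ↑ₐ r - a ∈ Q}
    have hne : S.Nonempty := (harch a).imp fun r hr => hMQ hr
    obtain ⟨s, hs⟩ := harch (-a)
    have hbdd : BddBelow S := ⟨-s, fun r hr => by
      by_contra! hlt
      refine hQ.neg_real_not_mem h1 (show r + s < 0 by linarith) ?_
      rw [map_add, show ↑ₐ r + ↑ₐ s = ↑ₐ r - a + (↑ₐ s - -a) by ring]
      exact hQ.add_mem hr (hMQ hs)⟩
    refine ⟨sInf S, fun ε hε => ⟨?_, ?_⟩⟩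
    · obtain ⟨r, hr, hlt⟩ := exists_lt_of_csInf_lt hne (show sInf S < sInf S + ε by linarith)
      rw [show ↑ₐ (sInf S + ε) - a = ↑ₐ r - a + ↑ₐ (sInf S + ε - r) by
        rw [map_sub ↑ₐ]; ring]
      exact hQ.add_mem hr (hQ.real_mem (by linarith))
    · refine (mem_or_neg_mem hQ h1 hmax (↑ₐ (sInf S - ε) - a)).elim (fun hmem => ?_) fun hmem => ?_
      · have := csInf_le hbdd hmem
        linarith
      · rwa [neg_sub] at hmem
  have huniq : ∀ {a c d}, P a c → P a d → c = d := by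
    suffices H : ∀ a c d, P a c → P a d → ¬ c < d from fun {a c d} hc hd =>
      le_antisymm (not_lt.1 (H a d c hd hc)) (not_lt.1 (H a c d hc hd))
    intro a c d hc hd hlt
    refine hQ.neg_real_not_mem h1 (show c + (d - c) / 3 - (d - (d - c) / 3) < 0 by linarith) ?_
    rw [map_sub, show ↑ₐ (c + (d - c) / 3) - ↑ₐ (d - (d - c) / 3) =
      ↑ₐ (c + (d - c) / 3) - a + (a - ↑ₐ (d - (d - c) / 3)) by ring]
    exact hQ.add_mem (hc _ (by linarith)).1 (hd _ (by linarith)).2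
  have hreal : ∀ r, P (↑ₐ r) r := fun r ε hε => by
    rw [← map_sub, ← map_sub]
    exact ⟨hQ.real_mem (by linarith), hQ.real_mem (by linarith)⟩
  have hadd : ∀ {a b c d}, P a c → P b d → P (a + b) (c + d) := fun {a b c d} hc hd ε hε => by
    obtain ⟨h11, h12⟩ := hc (ε / 2) (by linarith)
    obtain ⟨h21, h22⟩ := hd (ε / 2) (by linarith)
    constructor
    · rw [show c + d + ε = (c + ε / 2) + (d + ε / 2) by ring, map_add, add_sub_add_comm]
      exact hQ.add_mem h11 h21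
    · rw [show c + d - ε = (c - ε / 2) + (d - ε / 2) by ring, map_add, add_sub_add_comm]
      exact hQ.add_mem h12 h22
  have hneg : ∀ {a c}, P a c → P (-a) (-c) := fun {a c} hc ε hε => by
    obtain ⟨h11, h12⟩ := hc ε hε
    constructor
    · rwa [show -c + ε = -(c - ε) by ring, map_neg, sub_neg_eq_add, neg_add_eq_sub]
    · rwa [show -c - ε = -(c + ε) by ring, map_neg, sub_neg_eq_add, neg_add_eq_sub]
  have hpos : ∀ {a c} {r : ℝ}, 0 < r → P a c → P (↑ₐ r * a) (r * c) := fun {a c r} hr hc ε hε => by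
    obtain ⟨h11, h12⟩ := hc (ε / r) (by positivity)
    constructor
    · rw [show r * c + ε = r * (c + ε / r) by field_simp, map_mul, ← mul_sub]
      exact hQ.smul_mem hr.le h11
    · rw [show r * c - ε = r * (c - ε / r) by field_simp, map_mul, ← mul_sub]
      exact hQ.smul_mem hr.le h12
  have hsmul : ∀ {a c} (r : ℝ), P a c → P (↑ₐ r * a) (r * c) := fun {a c} r hc => by
    rcases lt_trichotomy r 0 with hr | rfl | hr
    · simpa using hneg (hpos (neg_pos.2 hr) hc)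
    · simpa using hreal 0
    · exact hpos hr hc
  have hsq0 : ∀ {a}, P a 0 → P (a * a) 0 := fun {a} ha ε hε => by
    refine ⟨?_, ?_⟩
    · obtain ⟨h11, h12⟩ := ha (Real.sqrt ε) (Real.sqrt_pos.2 hε)
      rw [zero_add] at h11 ⊢
      rw [zero_sub, map_neg, sub_neg_eq_add, add_comm] at h12
      simpa [Real.sq_sqrt hε.le] using hQ.sq_sub_sq_mem (Real.sqrt_pos.2 hε) h11 h12
    · rw [zero_sub, map_neg, sub_neg_eq_add]
      exact hQ.add_mem (hQ.sq_mem a) (hQ.real_mem hε.le)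
  have hsq : ∀ {a c}, P a c → P (a * a) (c * c) := fun {a c} hc => by
    have h0 : P (a + -↑ₐ c) 0 := by simpa using hadd hc (hneg (hreal c))
    have := hadd (hadd (hsq0 h0) (hsmul (2 * c) hc)) (hneg (hreal (c * c)))
    convert this using 1
    · simp only [map_mul, map_ofNat]; ring
    · ring
  choose f hf using hex
  have hfm : ∀ a b, f (a * b) = f a * f b := fun a b => by
    have h2 : P (↑ₐ (2 : ℝ)⁻¹ * ((a + b) * (a + b) + -(a * a) + -(b * b)))
        ((2 : ℝ)⁻¹ * ((f a + f b) * (f a + f b) + -(f a * f a) + -(f b * f b))) :=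
      hsmul _ (hadd (hadd (hsq (hadd (hf a) (hf b))) (hneg (hsq (hf a)))) (hneg (hsq (hf b))))
    have h2' : ↑ₐ (2 : ℝ)⁻¹ * 2 = 1 := by
      rw [show (2 : A) = ↑ₐ 2 from (map_ofNat _ 2).symm, ← map_mul]
      norm_num
    rw [show ↑ₐ (2 : ℝ)⁻¹ * ((a + b) * (a + b) + -(a * a) + -(b * b)) = a * b by
      linear_combination (a * b) * h2'] at h2
    rw [huniq (hf (a * b)) h2]
    ring
  refine ⟨{ toFun := f, map_one' := huniq (hf 1) (by simpa using hreal 1),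
            map_mul' := hfm, map_zero' := huniq (hf 0) (by simpa using hreal 0),
            map_add' := fun a b => huniq (hf (a + b)) (hadd (hf a) (hf b)),
            commutes' := fun r => huniq (hf _) (hreal r) }, fun m hm => ?_⟩
  show 0 ≤ f m
  by_contra! hlt
  refine hQ.neg_real_not_mem h1 (show f m + -f m / 2 < 0 by linarith) ?_
  rw [show ↑ₐ (f m + -f m / 2) = ↑ₐ (f m + -f m / 2) - m + m by ring]
  exact hQ.add_mem ((hf m) _ (by linarith)).1 (hMQ hm)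

/-- **Jacobi's representation theorem.** -/
theorem mem_of_pos {M : Set A} (hM : IsQuadModule M) (harch : IsArchimedeanModule M) (f : A)
    (hf : ∀ φ : A →ₐ[ℝ] ℝ, (∀ m ∈ M, 0 ≤ φ m) → 0 < φ f) : f ∈ M := by
  obtain ⟨m, hm, s, hs, e⟩ : ∃ m ∈ M, ∃ s, IsSumSq s ∧ -1 = m - s * f := by
    by_contra! hno
    obtain ⟨φ, hφ⟩ := exists_character (M := {z | ∃ m ∈ M, ∃ s, IsSumSq s ∧ z = m - s * f})
      ⟨⟨1, hM.one_mem, 0, IsSumSq.zero, by ring⟩,
        fun ⟨m, hm, s, hs, e⟩ ⟨m', hm', s', hs', e'⟩ =>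
          ⟨m + m', hM.add_mem hm hm', s + s', hs.add hs', by rw [e, e']; ring⟩,
        fun a _ ⟨m, hm, s, hs, e⟩ => ⟨a * a * m, hM.sq_mul_mem a hm, a * a * s,
          (IsSumSq.mul_self a).mul hs, by rw [e]; ring⟩⟩
      (fun a => (harch a).imp fun r hr => ⟨_, hr, 0, IsSumSq.zero, by ring⟩)
      (fun ⟨m, hm, s, hs, e⟩ => hno m hm s hs e)
    have h1 := hf φ fun m hm => hφ m ⟨m, hm, 0, IsSumSq.zero, by ring⟩
    have h2 := hφ (-f) ⟨0, hM.zero_mem, 1, IsSumSq.one, by ring⟩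
    rw [map_neg] at h2
    linarith
  have hsf : s * f - 1 ∈ M := by rwa [show s * f - 1 = m by linear_combination e]
  obtain ⟨r₁, hr₁⟩ := harch s
  obtain ⟨r₂, hr₂⟩ := harch (1 + s * s * f)
  obtain ⟨k, hk0, hk₁, hk₂⟩ : ∃ k : ℝ, 0 < k ∧ r₁ ≤ 2 * k ∧ r₂ ≤ 2 * k :=
    ⟨|r₁| + |r₂| + 1, by positivity, by linarith [le_abs_self r₁, abs_nonneg r₂, abs_nonneg r₁],
      by linarith [le_abs_self r₂, abs_nonneg r₁, abs_nonneg r₂]⟩
  have hup : ∀ {a : A} {r r' : ℝ}, ↑ₐ r - a ∈ M → r ≤ r' → ↑ₐ r' - a ∈ M := by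
    intro a r r' h hle
    rw [show ↑ₐ r' - a = ↑ₐ r - a + ↑ₐ (r' - r) by rw [map_sub]; ring]
    exact hM.add_mem h (hM.real_mem (sub_nonneg.2 hle))
  have hstep : ∀ r : ℝ, 0 ≤ r → f + ↑ₐ r ∈ M → f + ↑ₐ (r - 1 / k ^ 2) ∈ M := by
    intro r hr hfr
    have h := hM.smul_mem (r := 1 / k ^ 2) (by positivity) (hM.add_mem (hM.add_mem
      (hM.add_mem (hM.sq_mul_mem (↑ₐ k - s) hfr) (hM.smul_mem (r := 2 * k) (by linarith) hsf))
      (hM.smul_mem hr (hM.sumSq_mul_mem hs (hup hr₁ hk₁)))) (hup hr₂ hk₂))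
    have hk : ↑ₐ (1 / k ^ 2) * ↑ₐ k ^ 2 = 1 := by
      rw [← map_pow, ← map_mul, show 1 / k ^ 2 * k ^ 2 = 1 by field_simp, map_one]
    convert h using 1
    simp only [map_sub, map_mul, map_ofNat]
    linear_combination (-(f + ↑ₐ r)) * hk
  obtain ⟨r₀, hr₀⟩ := harch (-f)
  have hall : ∀ j : ℕ, f + ↑ₐ (max (r₀ - j * (1 / k ^ 2)) 0) ∈ M := by
    have hup' : ∀ {r r' : ℝ}, f + ↑ₐ r ∈ M → r ≤ r' → f + ↑ₐ r' ∈ M := fun {r r'} h hle => by
      have := hup (a := -f) (by rwa [sub_neg_eq_add, add_comm]) hle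
      rwa [sub_neg_eq_add, add_comm] at this
    intro j
    induction j with
    | zero => exact hup' (by rwa [sub_neg_eq_add, add_comm] at hr₀) (by simp)
    | succ j ih =>
      refine hup' (hstep _ (le_max_right _ _) ih) ?_
      push_cast
      rcases max_cases (r₀ - j * (1 / k ^ 2)) 0 with ⟨e, -⟩ | ⟨e, -⟩ <;> rw [e]
      · exact le_max_of_le_left (by linarith)
      · exact le_max_of_le_right (by have : 0 ≤ 1 / k ^ 2 := (by positivity); linarith)
  obtain ⟨j, hj⟩ := exists_nat_ge (r₀ * k ^ 2)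
  have := hall j
  rwa [max_eq_right (by
    rw [sub_nonpos, mul_one_div, le_div_iff₀ (by positivity)]
    exact hj), map_zero, add_zero] at this

end Fermat.Agent.PutinarPositivity
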